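/-
Row 37 (S43), block E0, node ORTHL (helper5): THE CONCRETE FORM OF (O) at level `M q`, `4 ∣ M`, `q` an odd
prime not dividing `M`, `A ∣ q`, over the inertia field `K0 A`.

  `x = [u]`, `u` defined over `K0 A`, a unit at the two vertical valuations;  `y` toric  `⟹`  `e_n(x, y) = 1`.

Assembly of: `O.orth_abs`, `O.exists_local_root`, `O.exists_cen` (helper19), `O.hubO` (helper97),
`Chart.move_set` (helper248), `Centre/*` (helper59), `O.finite_modelPt_notMem` (helper187).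

* `orthL_of_span` : the toric function is `1 + ∑ cᵢ εᵢ`, `cᵢ ∈ 𝔪_A`, `εᵢ` over `K0 A`, vertically integral;
* `orthL_K0`      : the toric function is defined over `K0 A` and `≡ 1` at both vertical valuations
                    (NO open node);
* `orthL`         : `y` toric in the sense of `S15.LocN.IsTorJ`, from the node `NodeSPAN` (helper197).
-/
import Fermat.Agent.S43.E0.O.TopSpan
import Fermat.Agent.S43.E0.O.HubAll
import Fermat.Agent.S43.E0.O.Root
import Fermat.Agent.S43.E0.O.Ctr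
import Fermat.Agent.S43.E0.O.Fin
import Fermat.Agent.S43.E0.Chart.Export
import Fermat.Agent.S15.LocN.Jac
import Fermat.Agent.BAD.Bridge.HorDiv

set_option autoImplicit false
set_option linter.unusedSectionVars false

noncomputable section

namespace Fermat.Agent.S43.E0.Orth

open ModularCurve AlgebraicCurve Fermat.Agent.S24 Fermat.Agent.S18 Fermat.Agent.S36.Mod
  Fermat.Agent.BAD.LevelQ Fermat.Agent.BAD.LevelQ.Mod Fermat.Agent.Lib.InertiaField
  Fermat.Agent.S36.BP Fermat.Agent.S27 Fermat.Agent.S19.Weil Fermat.Agent.GAL Fermat.Agent.C1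
  Fermat.Agent.S15.LocN Fermat.Agent.S44.X.Cover

variable (A : ValuationSubring S44.Qb) {M q : ℕ} [NeZero M] [NeZero q]

/-- **NodeSPAN** (helper197): a function `≡ 1` at the two Gauss valuations of `FN (M q)` is
`1 + ∑ cᵢ εᵢ` with `cᵢ ∈ 𝔪_A` and `εᵢ` defined over `K0 A`, integral at the two vertical valuations. -/
def NodeSPAN [IsDiscreteValuationRing (A0 A)] (hc : M.Coprime q) (D : ALData M q) : Prop :=
  ∀ w : FN (M * q), Cong1 A (M * q) w → Cong1 A (M * q) (D.w w) →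
    ∃ (m : ℕ) (c : Fin m → S44.Qb) (ε : Fin m → FK (K0 A) (M * q)),
      (∀ i, A.valuation (c i) < 1) ∧ (∀ i k, ε i ∈ VV (A0 A) hc k) ∧
      w - 1 = ∑ i, algebraMap S44.Qb (FN (M * q)) (c i) * bcX (K0 A) (M * q) (ε i)

variable {A}

/-- **(O)**, the toric function in SPAN form. -/
theorem orthL_of_span [IsDiscreteValuationRing (A0 A)] (hq : q.Prime) (hq2 : q ≠ 2) (h4 : 4 ∣ M)
    (hc : M.Coprime q) (hA : A.LiesOverPrime q)
    {n : ℕ} (hn : 0 < n) (hqn : ¬ q ∣ n) {x y : JZero (M * q)} (a : TorsRep n x) (b : TorsRep n y)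
    (u : FK (K0 A) (M * q)) (hau : a.f = bcX (K0 A) (M * q) u)
    (hu : ∀ c, (VV (A0 A) hc c).valuation u = 1)
    {m : ℕ} (c : Fin m → S44.Qb) (ε : Fin m → FK (K0 A) (M * q))
    (hc1 : ∀ i, A.valuation (c i) < 1) (hε : ∀ i k, ε i ∈ VV (A0 A) hc k)
    (hspan : b.f - 1 = ∑ i, algebraMap S44.Qb (FN (M * q)) (c i) * bcX (K0 A) (M * q) (ε i)) :
    weil n x y = 1 := by
  obtain ⟨x', γ, x₀, y₀, H, E, -, hdich⟩ := O.hubO hq hq2 h4 hc hA
  have hac := isAlgClosed_residueField_A0 A q hq hA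
  have hnA : A.valuation ((n : ℕ) : S44.Qb) = 1 := by
    have := Unram.valuation_intCast_eq_one (A := A) hq hA (n := (n : ℤ))
      (by exact_mod_cast hqn)
    exact_mod_cast this
  have hu0 : u ≠ 0 := by
    rintro rfl
    have := hu 0
    rw [map_zero] at this
    exact zero_ne_one this
  have hd : HorDiv (K0 A) n u :=
    BAD.Bridge.horDiv_of_isKum A (M * q) n u hu0 (hau ▸ TorsRep.isKum a)
  refine O.orth_abs hn A hnA (bcX (K0 A) (M * q))
    {R | IsModelPt (A0 A) (q : K0 A) (xx (al (K0 A) M q) (be (K0 A) M q) x') R}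
    {ε | ∀ c, ε ∈ VV (A0 A) hc c} ?_ ?_ a b u hau ?_ c ε hc1 hε hspan
  · intro v
    exact O.exists_cen hq hA (M * q) _ v
  · intro ε hε
    exact O.finite_modelPt_notMem H.mChart hε
  · intro Z hZ hfin
    refine Chart.move_set H.mChart hac hn.ne' (fun R hR => ?_) Z hZ hfin
    obtain ⟨g, hg0, hg⟩ := O.exists_local_root hac H E hR (hdich R hR) hu hd
    refine ⟨g⁻¹, ?_⟩
    have e : g⁻¹ ^ n * u = u / g ^ n := by
      rw [inv_pow, div_eq_mul_inv]
      exact mul_comm _ _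
    rw [e]
    exact hg

/-- **(O)**, the toric function over the inertia field.  No open node. -/
theorem orthL_K0 [IsDiscreteValuationRing (A0 A)] (hq : q.Prime) (hq2 : q ≠ 2) (h4 : 4 ∣ M)
    (hc : M.Coprime q) (hA : A.LiesOverPrime q)
    {n : ℕ} (hn : 0 < n) (hqn : ¬ q ∣ n) {x y : JZero (M * q)} (a : TorsRep n x) (b : TorsRep n y)
    (u w : FK (K0 A) (M * q)) (hau : a.f = bcX (K0 A) (M * q) u)
    (hbw : b.f = bcX (K0 A) (M * q) w)
    (hu : ∀ c, (VV (A0 A) hc c).valuation u = 1)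
    (hw : ∀ c, (VV (A0 A) hc c).valuation (w - 1) < 1) :
    weil n x y = 1 := by
  obtain ⟨x', γ, x₀, y₀, H, -, -, -⟩ := O.hubO hq hq2 h4 hc hA
  set ϖ : FK (K0 A) (M * q) := algebraMap (K0 A) (FK (K0 A) (M * q)) (q : K0 A) with hϖ
  have hϖ0 : ϖ ≠ 0 := (H.mChart.unif 0).ne_zero
  refine orthL_of_span hq hq2 h4 hc hA hn hqn a b u hau hu (m := 1) (fun _ => (q : S44.Qb))
    (fun _ => (w - 1) / ϖ) (fun _ => (ValuationSubring.mem_nonunits_iff _).1 hA) (fun _ k => ?_) ?_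
  · rcases eq_or_ne (w - 1) 0 with h0 | h0
    · rw [h0, zero_div]
      exact (VV (A0 A) hc k).zero_mem
    · refine (H.mChart.unif k).div_mem ((ValuationSubring.valuation_le_one_iff _ _).1 (hw k).le) ?_
      intro hinv
      rw [← ValuationSubring.valuation_le_one_iff, map_inv₀] at hinv
      have hpos : 0 < (VV (A0 A) hc k).valuation (w - 1) :=
        zero_lt_iff.2 ((Valuation.ne_zero_iff _).2 h0)
      exact absurd ((inv_le_one₀ hpos).1 hinv) (not_le.2 (hw k))
  · rw [Fin.sum_univ_one, hbw]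
    have e1 : algebraMap S44.Qb (FN (M * q)) (q : S44.Qb) = bcX (K0 A) (M * q) ϖ := by
      rw [hϖ, O.bcX_const]
      congr 1
    rw [e1, ← map_mul, mul_div_cancel₀ _ hϖ0, map_sub, map_one]

/-- **ORTHL**, `y` toric over `ℚ̄`, from `NodeSPAN`. -/
theorem orthL [IsDiscreteValuationRing (A0 A)] (hq : q.Prime) (hq2 : q ≠ 2) (h4 : 4 ∣ M)
    (hc : M.Coprime q) (hA : A.LiesOverPrime q) (D : ALData M q) (hSPAN : NodeSPAN A hc D)
    {n : ℕ} (hn : 0 < n) (hqn : ¬ q ∣ n) {x y : JZero (M * q)} (a : TorsRep n x)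
    (u : FK (K0 A) (M * q)) (hau : a.f = bcX (K0 A) (M * q) u)
    (hu : ∀ c, (VV (A0 A) hc c).valuation u = 1) (hy : IsTorJ D A n y) :
    weil n x y = 1 := by
  obtain ⟨b, hb1, hb2⟩ := hy
  obtain ⟨m, c, ε, hc1, hε, hspan⟩ := hSPAN b.f hb1 hb2
  exact orthL_of_span hq hq2 h4 hc hA hn hqn a b u hau hu c ε hc1 hε hspan

end Fermat.Agent.S43.E0.Orth

end
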