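/-
Row 37 (S43), block E0 (helper5): **(ORTH') IS CLOSED** (no open node).

  `x ∈ J₀(M q)[n]` (`n` prime to `6 q`, `q` an odd prime not dividing `M`) fixed by the inertia group of `A ∣ q` and killed
  by a power of ONE `T_ℓ - c` with `ℓ + 1 - c` prime to `n`;  `y` toric (`S15.LocN.IsTorJ`)  `⟹`  `e_n(y, x) = 1`.

= `orthJ_n` / `orthJ2` (`E0/Orth/J.lean`) + `nodeJGal` (helper259) + `nodeJHecke` (helper257).
-/
import Fermat.Agent.S43.E0.Orth.J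
import Fermat.Agent.S43.E0.JGal
import Fermat.Agent.S43.E0.JHecke

set_option autoImplicit false
set_option linter.unusedSectionVars false

noncomputable section

namespace Fermat.Agent.S43.E0

open ModularCurve AlgebraicCurve Fermat.Agent.S24 Fermat.Agent.GAL Fermat.Agent.GAL.E
  Fermat.Agent.C1 Fermat.Agent.S19.Weil Fermat.Agent.S15.LocN Fermat.Agent.Lib.InertiaField

/-- **(ORTH')**, exponent `n` prime to `6 q`. -/
theorem orth_n {M q n ℓ : ℕ} [NeZero M] [NeZero q] [NeZero ℓ] (hq : q.Prime) (hq2 : q ≠ 2)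
    (hqM : ¬ q ∣ M) (D : ALData M q) (A : ValuationSubring Qb) (hA : A.LiesOverPrime q)
    (hn : 0 < n) (hqn : ¬ q ∣ n) (h6 : n.Coprime 6)
    (hℓ : ℓ.Prime) (hℓN : ¬ ℓ ∣ M * q) (c : ℤ) (hc : IsCoprime ((ℓ : ℤ) + 1 - c) (n : ℤ))
    {x y : JZero (M * q)} (hx : n • x = 0) (hxI : ∀ τ ∈ A.inertiaSubgroupIn ℚ, τ • x = x)
    (hxT : ∃ k : ℕ, ((S15.Tp (M * q) ℓ - (c : AddMonoid.End (JZero (M * q)))) ^ k) x = 0)
    (hy : IsTorJ D A n y) :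
    weil n y x = 1 :=
  haveI := isDiscreteValuationRing_A0 A q hq hA
  orthJ_n nodeJGal nodeJHecke hq hq2 hqM D A hA hn hqn h6 hℓ hℓN c hc hx hxI hxT hy

/-- **(ORTH')**, prime exponent `p ≥ 5`, `p ≠ q`. -/
theorem orth_p {M q p ℓ : ℕ} [NeZero M] [NeZero q] [NeZero ℓ] (hq : q.Prime) (hq2 : q ≠ 2)
    (hqM : ¬ q ∣ M) (D : ALData M q) (A : ValuationSubring Qb) (hA : A.LiesOverPrime q)
    (hp : p.Prime) (h5 : 5 ≤ p) (hpq : p ≠ q)
    (hℓ : ℓ.Prime) (hℓN : ¬ ℓ ∣ M * q) (c : ℤ) (hc : ¬ (p : ℤ) ∣ (ℓ : ℤ) + 1 - c)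
    {x y : JZero (M * q)} (hx : p • x = 0) (hxI : ∀ τ ∈ A.inertiaSubgroupIn ℚ, τ • x = x)
    (hxT : ∃ k : ℕ, ((S15.Tp (M * q) ℓ - (c : AddMonoid.End (JZero (M * q)))) ^ k) x = 0)
    (hy : IsTorJ D A p y) :
    weil p y x = 1 :=
  haveI := isDiscreteValuationRing_A0 A q hq hA
  orthJ2 nodeJGal nodeJHecke hq hq2 hqM D A hA hp h5 hpq hℓ hℓN c hc hx hxI hxT hy

end Fermat.Agent.S43.E0

end
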