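/-
Row 37 (S43), block E0, node (O) (helper5): **STATEMENT (O) IS CLOSED AT EVERY LEVEL `M q`** (`q` an odd prime).

`stmtO : Pull.StmtO M q` : a class of `J₀(M q)[n]` (`n` prime to `6 q`) with a representative `(D, u)`, `u` defined over
the inertia field `K0 A` and a unit at the two vertical valuations, is orthogonal for the Weil pairing to every toric class
(`S15.LocN.IsTorJ`).

= `Orth.orthL` (level `4 ∣ M`) + `O.exists_span` (helper197) + `Pull.stmtO_of_mul_four` (helper124).
-/
import Fermat.Agent.S43.E0.Orth.Top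
import Fermat.Agent.S43.E0.O.Span
import Fermat.Agent.S43.E0.Pull.Level

set_option autoImplicit false

noncomputable section

namespace Fermat.Agent.S43.E0.Orth

open Fermat.Agent.Lib.InertiaField

variable {M q : ℕ} [NeZero M] [NeZero q]

/-- `NodeSPAN` is closed. -/
theorem nodeSPAN {A : ValuationSubring S44.Qb} [IsDiscreteValuationRing (A0 A)] (hq : q.Prime)
    (hc : M.Coprime q) (D : C1.ALData M q) (hA : A.LiesOverPrime q) : NodeSPAN A hc D :=
  fun w h1 h2 => O.exists_span hq hc D hA w h1 h2

/-- (O) at the levels `M q` with `4 ∣ M`. -/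
theorem stmtO_of_four_dvd (hq : q.Prime) (hq2 : q ≠ 2) (h4 : 4 ∣ M) : Pull.StmtO M q := by
  intro hc D A _ hA n hn hqn _ x y a u hau hu hy
  exact orthL hq hq2 h4 hc hA D (nodeSPAN hq hc D hA) hn hqn a u hau hu hy

/-- **(O) at every level `M q`.** -/
theorem stmtO (hq : q.Prime) (hq2 : q ≠ 2) : Pull.StmtO M q :=
  Pull.stmtO_of_mul_four hq hq2 (stmtO_of_four_dvd hq hq2 (Dvd.intro_left M rfl))

end Fermat.Agent.S43.E0.Orth

end
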