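/-
Row 37 (S43), block E0, node ORTHJ (helper5): **(ORTH') in the language of `JZero (M * q)`**, from the two formal
dictionary nodes `NodeJGal`, `NodeJHecke` of `E0/OrthJ.lean` ONLY.

  `x ∈ J₀(M q)[p]` fixed by the inertia group of `A ∣ q` and killed by a power of ONE non-Eisenstein `T_ℓ - c`;
  `y` toric  `⟹`  `e_p(y, x) = 1`.

= `Orth.stmtO` ((O) at level `M q`) + `Vert.exists_unit_rep` (UNITREP at level `M q`, helper226).
No change of level here, no descent of the toric class, no nodal target, no Hecke hypothesis on `y`.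
-/
import Fermat.Agent.S43.E0.Orth.Stmt
import Fermat.Agent.S43.E0.OrthJ
import Fermat.Agent.S43.E0.Vert.Main

set_option autoImplicit false
set_option linter.unusedSectionVars false

noncomputable section

namespace Fermat.Agent.S43.E0

open ModularCurve AlgebraicCurve Fermat.Agent.S24 Fermat.Agent.S24.B Fermat.Agent.GAL
  Fermat.Agent.GAL.E Fermat.Agent.C1 Fermat.Agent.S27 Fermat.Agent.S19.Weil Fermat.Agent.S17.W
  Fermat.Agent.S15.LocN Fermat.Agent.Lib.InertiaField Fermat.Agent.BAD.LevelQ.Mod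
  Fermat.Agent.S18

theorem tauF_eq_tau {N ℓ : ℕ} [NeZero ℓ] (H : HeckeOp N ℓ) (c : ℤ) : tauF H c = Vert.tau H c := by
  funext u
  exact div_eq_mul_inv _ _

/-- **(ORTH'), general exponent `n` prime to `6 q`.** -/
theorem orthJ_n (hG : NodeJGal) (hH : NodeJHecke)
    {M q n ℓ : ℕ} [NeZero M] [NeZero q] [NeZero ℓ] (hq : q.Prime) (hq2 : q ≠ 2) (hqM : ¬ q ∣ M)
    (D : ALData M q) (A : ValuationSubring Qb) [IsDiscreteValuationRing (A0 A)]
    (hA : A.LiesOverPrime q) (hn : 0 < n) (hqn : ¬ q ∣ n) (h6 : n.Coprime 6)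
    (hℓ : ℓ.Prime) (hℓN : ¬ ℓ ∣ M * q) (c : ℤ) (hc : IsCoprime ((ℓ : ℤ) + 1 - c) (n : ℤ))
    {x y : JZero (M * q)} (hx : n • x = 0) (hxI : ∀ τ ∈ A.inertiaSubgroupIn ℚ, τ • x = x)
    (hxT : ∃ k : ℕ, ((S15.Tp (M * q) ℓ - (c : AddMonoid.End (JZero (M * q)))) ^ k) x = 0)
    (hy : IsTorJ D A n y) :
    weil n y x = 1 := by
  have hcop : M.Coprime q := ((Nat.Prime.coprime_iff_not_dvd hq).2 hqM).symm
  let H : HeckeOp (M * q) ℓ := heckeOp (M * q) ℓ hℓ hℓN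
  have hxz : (n : ℤ) • x = 0 := by rw [natCast_zsmul]; exact hx
  have hyz : (n : ℤ) • y = 0 := hy.zsmul_eq_zero
  obtain ⟨a, -⟩ := exists_torsRep hxz ∅
  obtain ⟨k, hk⟩ := hxT
  obtain ⟨h, hh⟩ := hH (M * q) n hn ℓ hℓ hℓN H c x a k hk
  rw [tauF_eq_tau] at hh
  obtain ⟨u, g, hg0, hug, hu⟩ := Vert.exists_unit_rep hq hcop hA hℓ hℓN H c hn.ne' hc k a.f
    a.div.1 (TorsRep.isKum a) (fun τ hτ => hG (M * q) n hn x a τ (hxI τ hτ)) ⟨h, hh⟩
  obtain ⟨G, hG'⟩ := exists_isDivOf (K := Kbar) g⁻¹ (inv_ne_zero hg0)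
  have key := Orth.stmtO (M := M) hq hq2 hcop D A hA n hn hqn h6 x y (a.move g⁻¹ G hG') u
    (by
      show g⁻¹ ^ n * a.f = _
      have e : ∀ z : FN (M * q), g⁻¹ ^ n * (z * g ^ n) = z := by
        intro z
        have h0 : g ^ n ≠ 0 := pow_ne_zero _ hg0
        rw [inv_pow]
        field_simp
      rw [hug, e]
      rfl) hu hy
  rw [S15.Pair.weil_swap hn hxz hyz, key, inv_one]

/-- **(ORTH')**: same conclusion as `orthJ`, from the dictionary nodes only. -/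
theorem orthJ2 (hG : NodeJGal) (hH : NodeJHecke)
    {M q p ℓ : ℕ} [NeZero M] [NeZero q] [NeZero ℓ] (hq : q.Prime) (hq2 : q ≠ 2) (hqM : ¬ q ∣ M)
    (D : ALData M q) (A : ValuationSubring Qb) [IsDiscreteValuationRing (A0 A)]
    (hA : A.LiesOverPrime q) (hp : p.Prime) (h5 : 5 ≤ p) (hpq : p ≠ q)
    (hℓ : ℓ.Prime) (hℓN : ¬ ℓ ∣ M * q) (c : ℤ) (hc : ¬ (p : ℤ) ∣ (ℓ : ℤ) + 1 - c)
    {x y : JZero (M * q)} (hx : p • x = 0) (hxI : ∀ τ ∈ A.inertiaSubgroupIn ℚ, τ • x = x)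
    (hxT : ∃ k : ℕ, ((S15.Tp (M * q) ℓ - (c : AddMonoid.End (JZero (M * q)))) ^ k) x = 0)
    (hy : IsTorJ D A p y) :
    weil p y x = 1 := by
  have hqp : ¬ q ∣ p := fun h => hpq ((Nat.prime_dvd_prime_iff_eq hq hp).1 h).symm
  have hcc : IsCoprime ((ℓ : ℤ) + 1 - c) (p : ℤ) :=
    ((Nat.prime_iff_prime_int.1 hp).coprime_iff_not_dvd.2 hc).symm
  have h6 : p.Coprime 6 := by
    rw [Nat.Prime.coprime_iff_not_dvd hp]
    intro h
    have := Nat.le_of_dvd (by norm_num) h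
    interval_cases p
    · norm_num at h
    · norm_num at hp
  exact orthJ_n hG hH hq hq2 hqM D A hA hp.pos hqp h6 hℓ hℓN c hcc hx hxI hxT hy

end Fermat.Agent.S43.E0

end
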