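/-
Row 37 (S43), block E0, node ORTHL (helper5): `nodeOrthL : NodeOrthL` (the interface of `E0/OrthJ.lean`, helper36).
(helper132, 13:35: adapted to `NodeOrthL` v2 of `OrthJ.lean` (toric `y` in the sense of `IsTorJ`): `Orth.orthL` + `O.exists_span`.)
-/
import Fermat.Agent.S43.E0.Orth.Top
import Fermat.Agent.S43.E0.O.Span
import Fermat.Agent.S43.E0.OrthJ

set_option autoImplicit false

noncomputable section

namespace Fermat.Agent.S43.E0

/-- **Node ORTHL is closed.** -/
theorem nodeOrthL : NodeOrthL := by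
  intro q M' _ _ hq hq2 _ hc A _ hA D n hn hqn x y a v0 ha hv0 hv1 hy
  exact Orth.orthL hq hq2 (Dvd.intro_left M' rfl) hc hA D
    (fun w h1 h2 => O.exists_span hq hc D hA w h1 h2) hn hqn a v0 ha
    (Fin.forall_fin_two.2 ⟨hv0, hv1⟩) hy

end Fermat.Agent.S43.E0

end
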